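/-
S15 block Eps (shadow by helper75), abstract part (MATHLIB ONLY).

`V` a finite subgroup of `J`, `R` a subring of `End J` preserving `V` and acting commutatively on `V`,
`(η i)` a family of elements of `R`.  Then there is `ε ∈ R` which maps `V` into the common generalised
kernel of the `η i` and is the identity on it.

PROOF (minimality, no finite products): among the `ε ∈ R` which are the identity on the generalised kernel
take one with `#ε(V)` minimal.  If `y = ε x` is not in the generalised kernel of `η = η i`, let `e = η ^ n` be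
idempotent on `V`; then `ε' = (1 - e) ε` is still the identity on the generalised kernel, `1 - e` maps `ε V` onto
`ε' V` and kills `e y = ε (e x) ≠ 0`.
-/
import Mathlib

set_option autoImplicit false

namespace Fermat.Agent.S15.Eps

variable {J : Type*} [AddCommGroup J]

theorem exists_idem_iterate' {T : Type*} [Finite T] (f : T → T) :
    ∃ n : ℕ, 0 < n ∧ ∀ x, f^[n] (f^[n] x) = f^[n] x := by
  obtain ⟨a, b, hb, hab⟩ : ∃ a b : ℕ, 0 < b ∧ f^[a] = f^[a + b] := by
    obtain ⟨x, y, hxy, h⟩ := Finite.exists_ne_map_eq_of_infinite (fun k : ℕ => f^[k])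
    rcases lt_or_gt_of_ne hxy with hlt | hlt
    · exact ⟨x, y - x, by omega, by rw [Nat.add_sub_cancel' hlt.le]; exact h⟩
    · exact ⟨y, x - y, by omega, by rw [Nat.add_sub_cancel' hlt.le]; exact h.symm⟩
  have h1 : ∀ m, a ≤ m → f^[m] = f^[m + b] := by
    intro m hm
    obtain ⟨c, rfl⟩ := Nat.exists_eq_add_of_le hm
    rw [add_comm a c, Function.iterate_add, hab, ← Function.iterate_add, add_assoc]
  have h2 : ∀ m, a ≤ m → ∀ j, f^[m] = f^[m + b * j] := by
    intro m hm j
    induction j with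
    | zero => rw [mul_zero, add_zero]
    | succ j ih => rw [ih, h1 (m + b * j) (by omega)]; congr 1; ring
  refine ⟨b * (a + 1), Nat.mul_pos hb (Nat.succ_pos a), fun x => ?_⟩
  have hle : a ≤ b * (a + 1) := by nlinarith
  rw [← Function.iterate_add_apply]
  exact (congrFun (h2 (b * (a + 1)) hle (a + 1)) x).symm

/-- a power of `η` is idempotent on the finite group `V` -/
theorem exists_idem_pow (V : AddSubgroup J) [Finite V] (η : AddMonoid.End J)
    (hV : ∀ x ∈ V, η x ∈ V) :
    ∃ n : ℕ, 0 < n ∧ ∀ x ∈ V, (η ^ n) ((η ^ n) x) = (η ^ n) x := by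
  let f : V → V := fun v => ⟨η v, hV v v.2⟩
  have hf : ∀ (m : ℕ) (v : V), ((f^[m] v : V) : J) = (η ^ m) v := by
    intro m
    induction m with
    | zero => intro v; rfl
    | succ m ih =>
      intro v
      rw [Function.iterate_succ_apply, ih, pow_succ]
      rfl
  obtain ⟨n, hn, h⟩ := exists_idem_iterate' f
  refine ⟨n, hn, fun x hx => ?_⟩
  have h1 := congrArg (Subtype.val) (h ⟨x, hx⟩)
  rw [hf, hf] at h1
  exact h1

theorem pow_apply_mem (V : AddSubgroup J) (η : AddMonoid.End J) (hV : ∀ x ∈ V, η x ∈ V) (m : ℕ) :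
    ∀ x ∈ V, (η ^ m) x ∈ V := by
  induction m with
  | zero => intro x hx; exact hx
  | succ m ih =>
    intro x hx
    rw [pow_succ]
    exact ih _ (hV x hx)

/-- an idempotent power of `η` kills the generalised kernel of `η` -/
theorem idem_pow_apply_eq_zero (V : AddSubgroup J) (η : AddMonoid.End J) (hV : ∀ x ∈ V, η x ∈ V)
    {n : ℕ} (hn : 0 < n) (h : ∀ x ∈ V, (η ^ n) ((η ^ n) x) = (η ^ n) x) {x : J} (hx : x ∈ V) {k : ℕ}
    (hk : (η ^ k) x = 0) : (η ^ n) x = 0 := by
  have h1 : ∀ j : ℕ, ((η ^ n) ^ (j + 1)) x = (η ^ n) x := by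
    intro j
    induction j with
    | zero => rw [zero_add, pow_one]
    | succ j ih =>
      rw [pow_succ]
      show ((η ^ n) ^ (j + 1)) ((η ^ n) x) = _
      have h2 : ∀ (i : ℕ) (z : J), z ∈ V → (η ^ n) z = z → ((η ^ n) ^ i) z = z := by
        intro i
        induction i with
        | zero => intro z _ _; rfl
        | succ i ihi =>
          intro z hz hzz
          rw [pow_succ]
          show ((η ^ n) ^ i) ((η ^ n) z) = z
          rw [hzz]
          exact ihi z hz hzz
      exact h2 _ _ (pow_apply_mem V η hV n x hx) (h x hx)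
  rw [← h1 k, ← pow_mul]
  have h3 : n * (k + 1) = (n * (k + 1) - k) + k := by
    have : k ≤ n * (k + 1) := by nlinarith
    omega
  rw [h3, pow_add]
  show (η ^ (n * (k + 1) - k)) ((η ^ k) x) = 0
  rw [hk, map_zero]

/-- **E1** -/
theorem exists_projector (V : AddSubgroup J) [Finite V] (R : Subring (AddMonoid.End J))
    (hV : ∀ t ∈ R, ∀ x ∈ V, t x ∈ V)
    (hcomm : ∀ t ∈ R, ∀ t' ∈ R, ∀ x ∈ V, t (t' x) = t' (t x))
    {ι : Type*} (η : ι → AddMonoid.End J) (hη : ∀ i, η i ∈ R) :
    ∃ ε ∈ R, (∀ x ∈ V, ∀ i, ∃ k : ℕ, (η i ^ k) (ε x) = 0) ∧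
      ∀ x ∈ V, (∀ i, ∃ k : ℕ, (η i ^ k) x = 0) → ε x = x := by
  classical
  have key : ∀ n : ℕ, ∀ ε ∈ R, (∀ x ∈ V, (∀ i, ∃ k : ℕ, (η i ^ k) x = 0) → ε x = x) →
      Nat.card (V.map (ε : J →+ J)) ≤ n →
      ∃ ε ∈ R, (∀ x ∈ V, ∀ i, ∃ k : ℕ, (η i ^ k) (ε x) = 0) ∧
        ∀ x ∈ V, (∀ i, ∃ k : ℕ, (η i ^ k) x = 0) → ε x = x := by
    intro n
    induction n with
    | zero =>
      intro ε _ _ hcard
      have : Finite (V.map (ε : J →+ J)) :=
        Finite.of_surjective (fun v : V => (⟨ε v, AddSubgroup.mem_map_of_mem _ v.2⟩ :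
          V.map (ε : J →+ J))) (by
            rintro ⟨_, v, hv, rfl⟩
            exact ⟨⟨v, hv⟩, rfl⟩)
      have := Nat.card_pos (α := V.map (ε : J →+ J))
      omega
    | succ n ih =>
      intro ε hε hid hcard
      by_cases hgood : ∀ x ∈ V, ∀ i, ∃ k : ℕ, (η i ^ k) (ε x) = 0
      · exact ⟨ε, hε, hgood, hid⟩
      push Not at hgood
      obtain ⟨x, hx, i, hi⟩ := hgood
      obtain ⟨m, hm, hidem⟩ := exists_idem_pow V (η i) (hV _ (hη i))
      have he : η i ^ m ∈ R := R.pow_mem (hη i) m
      have hε' : (1 - η i ^ m) * ε ∈ R := R.mul_mem (R.sub_mem R.one_mem he) hε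
      have happ : ∀ z : J, ((1 - η i ^ m) * ε) z = ε z - (η i ^ m) (ε z) := fun z => rfl
      refine ih _ hε' ?_ ?_
      · intro z hz hzk
        obtain ⟨k, hk⟩ := hzk i
        rw [happ, hid z hz hzk, idem_pow_apply_eq_zero V (η i) (hV _ (hη i)) hm hidem hz hk, sub_zero]
      · have hfin : Finite (V.map (ε : J →+ J)) :=
          Finite.of_surjective (fun v : V => (⟨ε v, AddSubgroup.mem_map_of_mem _ v.2⟩ :
            V.map (ε : J →+ J))) (by
              rintro ⟨_, v, hv, rfl⟩
              exact ⟨⟨v, hv⟩, rfl⟩)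
        let g : V.map (ε : J →+ J) → V.map (((1 - η i ^ m) * ε : AddMonoid.End J) : J →+ J) :=
          fun z => ⟨(z : J) - (η i ^ m) z, by
            obtain ⟨_, v, hv, rfl⟩ := z
            exact ⟨v, hv, rfl⟩⟩
        have hg : Function.Surjective g := by
          rintro ⟨_, v, hv, rfl⟩
          exact ⟨⟨ε v, AddSubgroup.mem_map_of_mem _ hv⟩, rfl⟩
        have hfin' : Finite (V.map (((1 - η i ^ m) * ε : AddMonoid.End J) : J →+ J)) :=
          Finite.of_surjective g hg
        have hng : ¬ Function.Injective g := by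
          intro hinj
          have hey : (η i ^ m) (ε x) ∈ V.map (ε : J →+ J) := by
            rw [hcomm _ he _ hε x hx]
            exact AddSubgroup.mem_map_of_mem _ (hV _ he x hx)
          have h0 : g ⟨(η i ^ m) (ε x), hey⟩ = g 0 := by
            apply Subtype.ext
            show (η i ^ m) (ε x) - (η i ^ m) ((η i ^ m) (ε x)) = (0 : J) - (η i ^ m) (0 : J)
            rw [hidem _ (hV _ hε x hx), sub_self, map_zero, sub_zero]
          exact hi m (congrArg Subtype.val (hinj h0))
        have := Fintype.ofFinite (V.map (ε : J →+ J))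
        have := Fintype.ofFinite (V.map (((1 - η i ^ m) * ε : AddMonoid.End J) : J →+ J))
        have hlt := Fintype.card_lt_of_surjective_not_injective g hg hng
        rw [← Nat.card_eq_fintype_card, ← Nat.card_eq_fintype_card] at hlt
        omega
  exact key _ 1 R.one_mem (fun _ _ _ => rfl) le_rfl

end Fermat.Agent.S15.Eps
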