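/-
S15 block Eps (shadow by helper75): the contract `EpsExists N r` of `S15/Abstract.lean`, literally.
-/
import Fermat.Agent.S15.Abstract
import Fermat.Agent.S15.Eps.Abstract
import Fermat.Agent.S15.Pair.JZero
import Fermat.Agent.S15.Pair.Adjoint

set_option autoImplicit false

noncomputable section

namespace Fermat.Agent.S15.Eps

open ModularCurve AlgebraicCurve Fermat.Agent.S24 Fermat.Agent.S15.Pair

variable (N : ℕ) [NeZero N]

/-- `TT N M` acts commutatively on the `n`-torsion. -/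
theorem TT_comm_tors (M n : ℕ) (hNM : N ∣ M) (h : HeckeCommTors N n) :
    ∀ t ∈ TT N M, ∀ t' ∈ TT N M, ∀ x ∈ tors N n, t (t' x) = t' (t x) := by
  intro t ht
  have hB : IsBimul (tors N n) (fun _ _ : JZero N => (1 : ℚ)) :=
    ⟨fun _ _ _ _ => one_ne_zero, fun _ _ _ _ _ _ => (one_mul 1).symm,
      fun _ _ _ _ _ _ => (one_mul 1).symm⟩
  exact (adjoint_closure hB {t | ∃ p : ℕ, p.Prime ∧ ¬ p ∣ M ∧ t = Tp N p}
    (fun s _ x hx => end_mem_tors s hx)
    (by
      rintro s ⟨p, hp, hpN, rfl⟩ s' ⟨q, hq, hqN, rfl⟩ x hx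
      exact h p q hp hq (fun h => hpN (h.trans hNM)) (fun h => hqN (h.trans hNM)) x hx)
    (fun _ _ _ _ _ _ => rfl) t ht).2.2

/-- **EPS** -/
theorem epsExists (r : ℕ) (hr : 0 < r) (h : HeckeCommTors N r) : EpsExists N r := by
  have := finite_tors' N hr
  obtain ⟨ε, hε, h1, h2⟩ := exists_projector (tors N r) (TT N (N * r))
    (fun t _ x hx => end_mem_tors t hx) (TT_comm_tors N (N * r) r (dvd_mul_right N r) h)
    (ι := {p : ℕ // p.Prime ∧ ¬ p ∣ N * r})
    (fun p => Tp N p.1 - ((1 + p.1 : ℕ) : AddMonoid.End (JZero N)))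
    (fun p => (TT N (N * r)).sub_mem (Subring.subset_closure ⟨p.1, p.2.1, p.2.2, rfl⟩)
      (natCast_mem _ _))
  refine ⟨ε, hε, fun x hx => ⟨end_mem_tors ε (mem_tors.2 hx), fun p hp hpN => h1 x hx ⟨p, hp, hpN⟩⟩,
    fun x hx => h2 x hx.1 fun p => hx.2 p.1 p.2.1 p.2.2⟩

end Fermat.Agent.S15.Eps

end
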